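import Mathlib
import Fermat.Prelude.Def_ModularCurve_X0

/-!
# COMMON (i), (ii): the `q`-expansions of `Δ` and `E₄` are the formal series of the prelude
-/

set_option autoImplicit false

open UpperHalfPlane ModularForm EisensteinSeries Filter Topology
open scoped MatrixGroups Manifold

namespace Fermat.Agent.Common

/-- Taylor series at `0` of a function `ℂ → ℂ`, as a formal power series. -/
noncomputable def taylorPS (f : ℂ → ℂ) : PowerSeries ℂ :=
  .mk fun m ↦ (↑m.factorial)⁻¹ * iteratedDeriv m f 0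

lemma taylorPS_coeff (f : ℂ → ℂ) (m : ℕ) :
    (taylorPS f).coeff m = (↑m.factorial)⁻¹ * iteratedDeriv m f 0 := by
  simp [taylorPS]

lemma qExpansion_eq_taylorPS (h : ℝ) (f : ℍ → ℂ) :
    qExpansion h f = taylorPS (cuspFunction h f) := rfl

lemma taylorPS_congr {f g : ℂ → ℂ} (h : f =ᶠ[𝓝 0] g) : taylorPS f = taylorPS g := by
  ext m
  rw [taylorPS_coeff, taylorPS_coeff, h.iteratedDeriv_eq]

lemma taylorPS_mul {f g : ℂ → ℂ} (hf : AnalyticAt ℂ f 0) (hg : AnalyticAt ℂ g 0) :
    taylorPS (f * g) = taylorPS f * taylorPS g := by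
  ext
  simp only [taylorPS_coeff,
    iteratedDeriv_mul hf.contDiffAt hg.contDiffAt, Finset.mul_sum, PowerSeries.coeff_mul,
    Finset.Nat.sum_antidiagonal_eq_sum_range_succ_mk, Nat.succ_eq_add_one]
  refine Finset.sum_congr rfl fun i hi ↦ ?_
  rw [Nat.cast_choose _ (by grind)]
  field_simp [Nat.factorial_ne_zero]

lemma taylorPS_sub {f g : ℂ → ℂ} (hf : AnalyticAt ℂ f 0) (hg : AnalyticAt ℂ g 0) :
    taylorPS (f - g) = taylorPS f - taylorPS g := by
  ext m
  simp [taylorPS_coeff, iteratedDeriv_sub hf.contDiffAt hg.contDiffAt, mul_sub]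

lemma taylorPS_one : taylorPS (1 : ℂ → ℂ) = 1 := by
  ext m
  have h2 : iteratedDeriv m (1 : ℂ → ℂ) 0 = if m = 0 then 1 else 0 := by
    simpa [ite_apply] using! iteratedDeriv_const
  simp +contextual [taylorPS_coeff, h2]

lemma taylorPS_id : taylorPS (id : ℂ → ℂ) = PowerSeries.X := by
  ext m
  rw [taylorPS_coeff, PowerSeries.coeff_X]
  rcases m with _ | _ | m
  · simp
  · simp [iteratedDeriv_one]
  · rw [iteratedDeriv_succ', iteratedDeriv_succ']
    simp

lemma taylorPS_pow {f : ℂ → ℂ} (hf : AnalyticAt ℂ f 0) (n : ℕ) :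
    taylorPS (f ^ n) = taylorPS f ^ n := by
  induction n with
  | zero => simpa using taylorPS_one
  | succ n ih => rw [pow_succ, pow_succ, taylorPS_mul (hf.pow n) hf, ih]

lemma taylorPS_prod {ι : Type*} (s : Finset ι) {f : ι → ℂ → ℂ} (hf : ∀ i ∈ s, AnalyticAt ℂ (f i) 0) :
    taylorPS (∏ i ∈ s, f i) = ∏ i ∈ s, taylorPS (f i) := by
  classical
  induction s using Finset.induction_on with
  | empty => simpa using taylorPS_one
  | insert a s ha ih =>
    rw [Finset.prod_insert ha, Finset.prod_insert ha, taylorPS_mul (hf a (by simp)), ih]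
    · exact fun i hi => hf i (by simp [hi])
    · exact Finset.analyticAt_prod _ fun i hi => hf i (by simp [hi])


/-- Iterated derivatives of a locally uniformly convergent family of holomorphic functions. -/
lemma tendstoLocallyUniformlyOn_iteratedDeriv {ι : Type*} {φ : Filter ι} {F : ι → ℂ → ℂ}
    {f : ℂ → ℂ} {U : Set ℂ} (hU : IsOpen U) (hf : TendstoLocallyUniformlyOn F f φ U)
    (hF : ∀ n, DifferentiableOn ℂ (F n) U) (k : ℕ) :
    TendstoLocallyUniformlyOn (fun n => iteratedDeriv k (F n)) (iteratedDeriv k f) φ U ∧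
      ∀ n, DifferentiableOn ℂ (iteratedDeriv k (F n)) U := by
  induction k with
  | zero => simpa [iteratedDeriv_zero] using ⟨hf, hF⟩
  | succ k ih =>
    refine ⟨?_, fun n => ?_⟩
    · have := ih.1.deriv (.of_forall ih.2) hU
      simpa [iteratedDeriv_succ, Function.comp_def] using this
    · rw [iteratedDeriv_succ]
      exact (ih.2 n).deriv hU

lemma tendsto_taylorPS_coeff {ι : Type*} {φ : Filter ι} {F : ι → ℂ → ℂ}
    {f : ℂ → ℂ} {U : Set ℂ} (hU : IsOpen U) (h0 : (0 : ℂ) ∈ U)
    (hf : TendstoLocallyUniformlyOn F f φ U)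
    (hF : ∀ n, DifferentiableOn ℂ (F n) U) (k : ℕ) :
    Tendsto (fun n => (taylorPS (F n)).coeff k) φ (𝓝 ((taylorPS f).coeff k)) := by
  simp only [taylorPS_coeff]
  exact ((tendstoLocallyUniformlyOn_iteratedDeriv hU hf hF k).1.tendsto_at h0).const_mul _

/-- The Euler function `q ↦ ∏ (1 - q ^ (n + 1))`. -/
noncomputable def eulerFun (q : ℂ) : ℂ := ∏' n : ℕ, (1 - q ^ (n + 1))

lemma analyticAt_eulerFun : AnalyticAt ℂ eulerFun 0 :=
  (differentiableOn_tprod_one_sub_pow).analyticAt (Metric.ball_mem_nhds 0 one_pos)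

lemma taylorPS_eulerFun : taylorPS eulerFun = PowerSeries.pentagonalSeries ℂ := by
  ext k
  have h1 : TendstoLocallyUniformlyOn (fun (s : Finset ℕ) (q : ℂ) => ∏ n ∈ s, (1 - q ^ (n + 1)))
      eulerFun atTop (Metric.ball (0 : ℂ) 1) :=
    multipliableLocallyUniformlyOn_one_sub_pow.hasProdLocallyUniformlyOn
  have h2 := tendsto_taylorPS_coeff Metric.isOpen_ball (Metric.mem_ball_self one_pos) h1
    (fun s => by fun_prop) k
  have h3 : ∀ s : Finset ℕ, taylorPS (fun q : ℂ => ∏ n ∈ s, (1 - q ^ (n + 1))) =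
      ∏ n ∈ s, (1 - PowerSeries.X ^ (n + 1)) := by
    intro s
    have : (fun q : ℂ => ∏ n ∈ s, (1 - q ^ (n + 1))) = ∏ n ∈ s, ((1 : ℂ → ℂ) - id ^ (n + 1)) := by
      funext q
      simp [Finset.prod_apply]
    rw [this, taylorPS_prod]
    · refine Finset.prod_congr rfl fun n _ => ?_
      have h1' : AnalyticAt ℂ (1 : ℂ → ℂ) 0 := analyticAt_const
      rw [taylorPS_sub h1' (analyticAt_id.pow _), taylorPS_one,
        taylorPS_pow analyticAt_id, taylorPS_id]
    · intro n _
      have h1' : AnalyticAt ℂ (1 : ℂ → ℂ) 0 := analyticAt_const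
      exact h1'.sub (analyticAt_id.pow _)
  simp only [h3] at h2
  refine tendsto_nhds_unique h2 (tendsto_nhds_of_eventually_eq ?_)
  exact PowerSeries.coeff_prod_one_sub_X_pow_eventually_eq ℂ k


open ModularCurve in
lemma map_etaProd : etaProd.map (Int.castRingHom ℂ) = PowerSeries.pentagonalSeries ℂ := by
  rw [etaProd, PowerSeries.WithPiTopology.tprod_one_sub_X_pow]
  ext n
  by_cases h : n ∈ Set.range pentagonal
  · obtain ⟨k, rfl⟩ := h
    simp
  · rw [PowerSeries.coeff_map, PowerSeries.coeff_pentagonalSeries_eq_zero _ h,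
      PowerSeries.coeff_pentagonalSeries_eq_zero _ h, map_zero]

open ModularCurve in
/-- COMMON (i): the `q`-expansion of `Δ` is the formal product `q ∏ (1 - q ^ n) ^ 24`. -/
theorem qExpansion_discriminant :
    qExpansion 1 ModularForm.discriminant =
      (PowerSeries.X * dedekindEtaUnit : PowerSeries ℤ).map (Int.castRingHom ℂ) := by
  have h1 : cuspFunction 1 ModularForm.discriminant =ᶠ[𝓝 0] (id * eulerFun ^ 24) := by
    filter_upwards [Metric.ball_mem_nhds (0 : ℂ) one_pos] with q hq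
    rw [discriminant_cuspFunction_eqOn hq]
    simp only [Pi.mul_apply, id, Pi.pow_apply, eulerFun]
    rw [(multipliable_one_sub_pow (by simpa using hq)).tprod_pow]
  rw [qExpansion_eq_taylorPS, taylorPS_congr h1,
    taylorPS_mul analyticAt_id (analyticAt_eulerFun.pow 24), taylorPS_id,
    taylorPS_pow analyticAt_eulerFun, taylorPS_eulerFun, map_mul, PowerSeries.map_X,
    dedekindEtaUnit, map_pow, map_etaProd]

open ModularCurve in
/-- COMMON (ii): the `q`-expansion of `E₄` is the formal Eisenstein series. -/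
theorem qExpansion_E4 : qExpansion 1 E₄ = eisenstein4.map (Int.castRingHom ℂ) := by
  ext n
  rw [E_qExpansion_coeff _ ⟨2, rfl⟩, PowerSeries.coeff_map, eisenstein4, PowerSeries.coeff_mk]
  split_ifs with h
  · simp
  · norm_num [show bernoulli 4 = -1 / 30 by decide +kernel, ArithmeticFunction.sigma_apply]

end Fermat.Agent.Common
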